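/-
Cluster J (S59), leaf (LOW): there is no normalised eigenform of weight 2 on `Γ₀(N)` for
`N = 1, 3, 5` (the spaces are zero: the dimension formula S20 gives `0`).
Owner: helper45.
Used for: in `Lift p`, `p ∈ {3, 5}`, the minimal level is not `1` or `p`, so some prime `q ≠ p`
of multiplicative reduction has `p ∤ v_q(Δ)` and the image of `ρbar` contains a transvection.
-/
import Fermat.Prelude.Def_FLTPrelim_Modularity
import Fermat.Agent.S20
import Fermat.Agent.S23.FiniteDim

set_option autoImplicit false

namespace Fermat.Agent.S59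

open ModularCurve

theorem low_nuTwo_one : nuTwo 1 = 1 := by
  unfold nuTwo
  rw [Nat.card_eq_fintype_card]
  rfl

theorem low_nuThree_one : nuThree 1 = 1 := by
  unfold nuThree
  rw [Nat.card_eq_fintype_card]
  rfl

theorem low_nuTwo_three : nuTwo 3 = 0 := by
  unfold nuTwo
  rw [Nat.card_eq_fintype_card]
  rfl

theorem low_nuThree_three : nuThree 3 = 1 := by
  unfold nuThree
  rw [Nat.card_eq_fintype_card]
  rfl

theorem low_nuTwo_five : nuTwo 5 = 2 := by
  unfold nuTwo
  rw [Nat.card_eq_fintype_card]
  rfl

theorem low_nuThree_five : nuThree 5 = 0 := by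
  unfold nuThree
  rw [Nat.card_eq_fintype_card]
  rfl

theorem low_cuspCount_three : cuspCount 3 = 2 := by
  decide

theorem low_cuspCount_five : cuspCount 5 = 2 := by
  decide

theorem low_dedekindPsi_three : dedekindPsi 3 = 4 := by
  have h := Fermat.Agent.S20.dedekindPsi_prime_pow (p := 3) (k := 0) Nat.prime_three
  norm_num at h
  exact h

theorem low_dedekindPsi_five : dedekindPsi 5 = 6 := by
  have h := Fermat.Agent.S20.dedekindPsi_prime_pow (p := 5) (k := 0) Nat.prime_five
  norm_num at h
  exact h

theorem low_genusFormula (N : ℕ) (hN : N = 1 ∨ N = 3 ∨ N = 5) : genusFormula N = 0 := by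
  rcases hN with rfl | rfl | rfl
  · rw [genusFormula, dedekindPsi_one, low_nuTwo_one, low_nuThree_one, cuspCount_one]
    norm_num
  · rw [genusFormula, low_dedekindPsi_three, low_nuTwo_three, low_nuThree_three,
      low_cuspCount_three]
    norm_num
  · rw [genusFormula, low_dedekindPsi_five, low_nuTwo_five, low_nuThree_five,
      low_cuspCount_five]
    norm_num

theorem low_subsingleton (N : ℕ) (hN : N = 1 ∨ N = 3 ∨ N = 5) :
    Subsingleton (CuspForm (CongruenceSubgroup.Gamma0 N) 2) := by
  have : NeZero N := ⟨by rcases hN with rfl | rfl | rfl <;> norm_num⟩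
  have h1 := Fermat.Agent.S20.result N
  rw [low_genusFormula N hN] at h1
  have h2 : Module.finrank ℂ (CuspForm (CongruenceSubgroup.Gamma0 N) 2) = 0 := by
    exact_mod_cast h1
  have : FiniteDimensional ℂ (CuspForm (CongruenceSubgroup.Gamma0 N) 2) :=
    Fermat.Agent.S23.finiteDimensional_cuspForm N 2
  exact Module.finrank_zero_iff.mp h2

theorem not_isNormalizedEigenform_of_level {N : ℕ} (hN : N = 1 ∨ N = 3 ∨ N = 5)
    (f : CuspForm (CongruenceSubgroup.Gamma0 N) 2) : ¬ f.IsNormalizedEigenform := by
  intro hf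
  have := low_subsingleton N hN
  have h0 : f = 0 := Subsingleton.elim f 0
  have h1 := hf.qCoeff_one
  rw [h0] at h1
  have h2 : ModularFormClass.qCoeff (⇑(0 : CuspForm (CongruenceSubgroup.Gamma0 N) 2)) 1 = 0 := by
    have h3 := (Fermat.Agent.S23.qExpLin N 2).map_zero
    rw [Fermat.Agent.S23.qExpLin_apply] at h3
    unfold ModularFormClass.qCoeff
    rw [h3]
    simp
  rw [h2] at h1
  exact zero_ne_one h1

end Fermat.Agent.S59
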