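/-
Cluster J (S59), W-side leaf (RAM): at a prime `q ≠ p` of multiplicative reduction with
`p ∤ v_q(Δ)`, some element of an inertia group at `q` acts non-trivially on `E[p]`.
(With `Lib/MultRed/Main.lean` `inertia_unipotent` this element acts as a transvection, which gives
the hypotheses `hTW`, `habs` of S56 through `S59/S56Hyp.lean`.)
STUB (owner: see NOTES/blueprint-J-S59.md).
Route (no Tate curve): if inertia acts trivially then `E[p] ⊂ E(K^nr)`; `E₀(K^nr)[p]` is cyclic
(reduction is injective on prime-to-`q` torsion of `E₀`, and the nonsingular locus of the nodal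
cubic is a torus), so some `P ∈ E[p]` is not in `E₀`; the component of `P` has order dividing both
`p` and `v_q(Δ)` (component map of the `I_n` fibre; S05 nodal analysis / `Lib/MultRed`).
-/
import Fermat.Prelude.Def_FLTPrelim_Modularity
import Fermat.Prelude.Def_FLTPrelim_Ramification
import Fermat.Prelude.Def_FLTPrelim_GaloisRep

set_option autoImplicit false

open scoped WeierstrassCurve.Affine

namespace Fermat.Agent.S59

theorem exists_inertia_smul_ne_of_not_dvd_val (W : WeierstrassCurve ℤ)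
    {p q : ℕ} [Fact p.Prime] [Fact q.Prime] (hp2 : p ≠ 2) (hqp : q ≠ p)
    (hΔ : (q : ℤ) ∣ W.Δ) (hc₄ : ¬ (q : ℤ) ∣ W.c₄) (hΔ0 : W.Δ ≠ 0)
    (hv : ¬ p ∣ padicValNat q W.Δ.natAbs) [DecidableEq (AlgebraicClosure ℚ)] :
    ∃ (A : ValuationSubring (AlgebraicClosure ℚ)) (_ : A.LiesOverPrime q)
      (σ : AlgebraicClosure ℚ ≃ₐ[ℚ] AlgebraicClosure ℚ) (_ : σ ∈ A.inertiaSubgroupIn ℚ)
      (P : ((W.map (Int.castRingHom ℚ))⁄(AlgebraicClosure ℚ)).Point),
      p • P = 0 ∧ σ • P ≠ P := by
  sorry

end Fermat.Agent.S59
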